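import Fermat.Agent.S35.G.SpecLevel
import Fermat.Agent.A2.Mod.H549.L14
import Fermat.Agent.A2.H528.FrobCong
import Fermat.Prelude.Def_ModularCurve_X0ModL
import Fermat.Prelude.Thm_ModularCurve_coeffMap_qExpand

/-!
# S35 (G'), leaf KRON-FROB (helper516)

* `kronFrob A E M q w : G.KronFrobStatement A E M q w` (`Fermat/Agent/S35/G/SpecLevel.lean`,
  verbatim): for a Frobenius lift `s` at `A` stabilising `E` and `a ∈ V∞_M`,
  `β (σ a) ≡ (α a) ^ q mod w V∞`.

Generic part (any field `L ⊇ ℚ`, valuation subring `A` with residue characteristic `q`,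
`σ` with `σ A ⊆ A` and `σ a ≡ a ^ q mod 𝔪_A`):

* `pow_eq_qExpand_frob` : in characteristic `q`, `y ^ q = (Frob y)(t ^ q)`;
* `red_qExpand_coeffMap` : `red ((σ U)(t ^ q)) = (red U) ^ q` for integral series `U`;
* `isGaussInt_kron` : `((σ f)(t ^ q) - f ^ q) / w` is Gauss-integral (at the higher level) if `f`
  is Gauss-integral;
* `sub_pow_mem_nonunits_of_isFrobeniusAt` : `s z - z ^ q ∈ 𝔪_A` for `z ∈ A`.
-/

set_option autoImplicit false
set_option linter.unusedSectionVars false
set_option synthInstance.maxHeartbeats 400000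
set_option maxHeartbeats 1600000

noncomputable section

namespace Fermat.Agent.S35.G.H516

open ModularCurve HahnSeries Fermat.Agent.A2

/-! ## Frobenius on Laurent series in characteristic `q` -/

/-- In characteristic `q`: `(∑ cₙ tⁿ) ^ q = ∑ cₙ ^ q t ^ (q n)`. -/
theorem pow_eq_qExpand_frob {k : Type*} [Field k] (q : ℕ) [hq : Fact q.Prime] [CharP k q]
    [NeZero q] (y : LaurentSeries k) :
    y ^ q = qExpand k q (coeffMap (frobenius k q) y) := by
  have hps : ∀ u : PowerSeries k, u ^ q = (u.map (frobenius k q)).expand q hq.out.ne_zero := by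
    intro u
    have h := MvPowerSeries.map_frobenius_expand (σ := Unit) (R := k) q hq.out.ne_zero (f := u)
    rw [← h]
    exact PowerSeries.map_expand q hq.out.ne_zero (frobenius k q) u
  conv_lhs => rw [← LaurentSeries.single_order_mul_powerSeriesPart y]
  conv_rhs => rw [← LaurentSeries.single_order_mul_powerSeriesPart y]
  rw [mul_pow, map_mul (coeffMap (frobenius k q)), map_mul (qExpand k q), coeffMap_single,
    RingHom.map_one, qExpand_single, HahnSeries.single_pow, one_pow, coeffMap_ofPowerSeries,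
    Fermat.Agent.A2.H528.qExpand_ofPowerSeries, ← map_pow, hps, nsmul_eq_mul]

/-! ## Generic part -/

section generic

variable {L : Type*} [Field L] [Algebra ℚ L] {A : ValuationSubring L}
  (q : ℕ) [Fact q.Prime] [NeZero q]

/-- `red ((ρ U)(t ^ q)) = (red U) ^ q` if `ρ` induces the `q`-Frobenius on the residue field. -/
theorem red_qExpand_coeffMap [CharP (IsLocalRing.ResidueField A) q] (ρ : A →+* A)
    (hρ : ∀ a : A, IsLocalRing.residue A (ρ a) = (IsLocalRing.residue A a) ^ q)
    (U : LaurentSeries A) :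
    H708.red A (qExpand A q (coeffMap ρ U)) = (H708.red A U) ^ q := by
  rw [pow_eq_qExpand_frob q, H708.red, coeffMap_qExpand]
  congr 1
  ext n
  rw [coeffMap_coeff, coeffMap_coeff, coeffMap_coeff, coeffMap_coeff, hρ, frobenius_def]

theorem incl_qExpand_coeffMap (σ : L ≃ₐ[ℚ] L) (hσA : ∀ a ∈ A, σ a ∈ A) (U : LaurentSeries A) :
    H708.incl A (qExpand A q (coeffMap (Mod.H549.resA A σ hσA) U)) =
      qExpand L q (coeffMap (σ : L →+* L) (H708.incl A U)) := by
  rw [H708.incl, coeffMap_qExpand]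
  exact congrArg (qExpand L q) (Mod.H549.incl_coeffMap_resA σ hσA U)

/-- **Kronecker congruence with explicit Frobenius twist, series form.** -/
theorem isGaussInt_kron [CharP (IsLocalRing.ResidueField A) q]
    (F₀ F₁ : IntermediateField ℚ (LaurentSeries ℚ))
    (σ : L ≃ₐ[ℚ] L) (hσA : ∀ a ∈ A, σ a ∈ A)
    (hfrob : ∀ a ∈ A, σ a - a ^ q ∈ A.nonunits)
    (hα : ∀ x ∈ laurentBaseChange L F₀, x ∈ laurentBaseChange L F₁)
    (hβ : ∀ x ∈ laurentBaseChange L F₀, qExpand L q x ∈ laurentBaseChange L F₁)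
    (w : A) (hw0 : w ≠ 0) (hw : ∀ a : A, (a : L) ∈ A.nonunits → w ∣ a)
    {f : LaurentSeries L} (hf : H708.IsGaussInt A F₀ f) :
    H708.IsGaussInt A F₁
      ((qExpand L q (coeffMap (σ : L →+* L) f) - f ^ q) * (H708.cst (w : L))⁻¹) := by
  obtain ⟨U₁, U₂, hred, hmem, heq⟩ := hf
  have hρ : ∀ a : A, IsLocalRing.residue A (Mod.H549.resA A σ hσA a) =
      (IsLocalRing.residue A a) ^ q := by
    intro a
    rw [← map_pow, ← sub_eq_zero, ← map_sub, IsLocalRing.residue_eq_zero_iff,
      ← ValuationSubring.coe_mem_nonunits_iff]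
    exact hfrob a a.2
  set V₁ : LaurentSeries A := qExpand A q (coeffMap (Mod.H549.resA A σ hσA) U₁) with hV₁
  set V₂ : LaurentSeries A := qExpand A q (coeffMap (Mod.H549.resA A σ hσA) U₂) with hV₂
  have e1 : qExpand L q (coeffMap (σ : L →+* L) f) * H708.incl A V₂ = H708.incl A V₁ := by
    rw [hV₁, hV₂, incl_qExpand_coeffMap, incl_qExpand_coeffMap, ← map_mul, ← map_mul, heq]
  have e2 : f ^ q * H708.incl A (U₂ ^ q) = H708.incl A (U₁ ^ q) := by
    rw [map_pow, map_pow, ← mul_pow, heq]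
  have hredV₂ : H708.red A V₂ = (H708.red A U₂) ^ q := red_qExpand_coeffMap q _ hρ U₂
  have hredV₁ : H708.red A V₁ = (H708.red A U₁) ^ q := red_qExpand_coeffMap q _ hρ U₁
  have hred0 : H708.red A (V₁ * U₂ ^ q - U₁ ^ q * V₂) = 0 := by
    rw [map_sub, map_mul, map_mul, map_pow, map_pow, hredV₁, hredV₂, sub_self]
  have hdiv : ∀ n, w ∣ (V₁ * U₂ ^ q - U₁ ^ q * V₂).coeff n := by
    intro n
    refine hw _ ?_
    rw [ValuationSubring.mem_nonunits_iff]
    exact (H708.red_eq_zero_iff A _).mp hred0 n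
  obtain ⟨U₃, hU₃⟩ := Mod.H549.exists_cstA_mul_eq w hw0 _ hdiv
  have hwL : (w : L) ≠ 0 := fun h => hw0 (Subtype.ext h)
  have hcst : H708.cst (w : L) ≠ 0 := H708.cst_ne_zero hwL
  refine ⟨U₃, V₂ * U₂ ^ q, ?_, ?_, ?_⟩
  · rw [map_mul, map_pow, hredV₂]
    exact mul_ne_zero (pow_ne_zero _ hred) (pow_ne_zero _ hred)
  · rw [map_mul, map_pow]
    refine mul_mem ?_ (hα _ (pow_mem hmem q))
    rw [hV₂, incl_qExpand_coeffMap]
    exact hβ _ (coeffMap_mem_laurentBaseChange σ hmem)
  · have key : H708.cst (w : L) * H708.incl A U₃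
        = (qExpand L q (coeffMap (σ : L →+* L) f) - f ^ q) * H708.incl A (V₂ * U₂ ^ q) := by
      rw [← H708.incl_cstA, ← map_mul, hU₃, map_sub, map_mul, map_mul, map_mul, ← e1, ← e2]
      ring
    rw [mul_right_comm, ← key, mul_comm (H708.cst (w : L)), mul_assoc,
      mul_inv_cancel₀ hcst, mul_one]

end generic

/-! ## Frobenius elements -/

/-- A Frobenius element at `A` is congruent to the `q`-th power map on `A`. -/
theorem sub_pow_mem_nonunits_of_isFrobeniusAt {K L : Type*} [Field K] [Field L] [Algebra K L]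
    (A : ValuationSubring L) {q : ℕ} {φ : L ≃ₐ[K] L} (hφ : A.IsFrobeniusAt φ q) {z : L}
    (hz : z ∈ A) : φ z - z ^ q ∈ A.nonunits := by
  obtain ⟨hσD, hF⟩ := hφ
  have h2 := hF (IsLocalRing.residue A ⟨z, hz⟩)
  rw [← IsLocalRing.ResidueField.residue_smul, ← map_pow] at h2
  have h3 : ((⟨φ, hσD⟩ : A.decompositionSubgroup K) • (⟨z, hz⟩ : A)) - (⟨z, hz⟩ : A) ^ q
      ∈ IsLocalRing.maximalIdeal A := by
    rw [← Ideal.Quotient.eq]
    exact h2
  rw [ValuationSubring.valuation_lt_one_iff] at h3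
  exact A.mem_nonunits_iff.mpr h3

section inst

variable (A : ValuationSubring Qb) (E : IntermediateField ℚ Qb)

/-- The restriction to `E` of an element of the decomposition group of `A` maps `R_E = A ∩ E`
into itself. -/
theorem resE_mem_RE (s : Qb ≃ₐ[ℚ] Qb) (hs : StableUnder E s)
    (hsD : s ∈ A.decompositionSubgroup ℚ) :
    ∀ a ∈ Mod.RE A E, (Mod.resE E s hs) a ∈ Mod.RE A E := by
  intro a ha
  rw [ValuationSubring.mem_comap] at ha ⊢
  have e : algebraMap ↥E Qb (Mod.resE E s hs a) = s (algebraMap ↥E Qb a) := rfl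
  rw [e]
  exact H708.apply_mem_of_mem_decomposition A hsD ha

theorem natCast_mem_nonunits_RE {q : ℕ} (hA : A.LiesOverPrime q) :
    (q : E) ∈ (Mod.RE A E).nonunits := by
  rw [Mod.H549.mem_nonunits_comap, map_natCast]
  exact hA

theorem charP_residueField_RE {q : ℕ} (hq : q.Prime) (hA : A.LiesOverPrime q) :
    CharP (IsLocalRing.ResidueField (Mod.RE A E)) q := by
  rw [CharP.charP_iff_prime_eq_zero hq]
  have h1 : IsLocalRing.residue (Mod.RE A E) ((q : ℕ) : Mod.RE A E) = 0 := by
    rw [IsLocalRing.residue_eq_zero_iff, ← ValuationSubring.coe_mem_nonunits_iff]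
    have : (((q : ℕ) : Mod.RE A E) : E) = (q : E) := by simp
    rw [this]
    exact natCast_mem_nonunits_RE A E hA
  rw [map_natCast] at h1
  exact h1

/-- The restriction to `E` of a Frobenius lift at `A` is congruent to the `q`-th power map on
`R_E`. -/
theorem resE_sub_pow_mem_nonunits {q : ℕ} (s : Qb ≃ₐ[ℚ] Qb) (hs : StableUnder E s)
    (hF : A.IsFrobeniusAt s q) :
    ∀ a ∈ Mod.RE A E, (Mod.resE E s hs) a - a ^ q ∈ (Mod.RE A E).nonunits := by
  intro a ha
  rw [ValuationSubring.mem_comap] at ha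
  rw [Mod.H549.mem_nonunits_comap, map_sub, map_pow]
  have e : algebraMap ↥E Qb (Mod.resE E s hs a) = s (algebraMap ↥E Qb a) := rfl
  rw [e]
  exact sub_pow_mem_nonunits_of_isFrobeniusAt A hF ha

theorem dvd_of_mem_nonunits_RE (w : Mod.RE A E) (hdvr : IsDiscreteValuationRing (Mod.RE A E))
    (hw : Irreducible w) :
    ∀ a : Mod.RE A E, (a : E) ∈ (Mod.RE A E).nonunits → w ∣ a := by
  intro a ha
  rw [ValuationSubring.coe_mem_nonunits_iff, hw.maximalIdeal_eq, Ideal.mem_span_singleton] at ha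
  exact ha

end inst

/-- **Leaf KRON-FROB** (`G.KronFrobStatement`, verbatim). -/
theorem kronFrob (A : ValuationSubring Qb) (E : IntermediateField ℚ Qb) (M q : ℕ) [NeZero M]
    [NeZero q] (w : Mod.RE A E) : KronFrobStatement A E M q w := by
  intro hS VM V hVM hV s hs hF a ha
  have hq := hS.q_prime
  have : Fact q.Prime := ⟨hq⟩
  have := charP_residueField_RE A E hq hS.lies_over
  have hsD := hF.mem_decompositionSubgroup
  have key := isGaussInt_kron (A := Mod.RE A E) q (modularFunctionFieldFull M)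
    (modularFunctionFieldFull (M * q)) (Mod.resE E s hs) (resE_mem_RE A E s hs hsD)
    (resE_sub_pow_mem_nonunits A E s hs hF)
    (fun x hx => by
      have := (Mod.αE E M q ⟨x, hx⟩).2
      rwa [coe_heckeAlphaBar] at this)
    (fun x hx => by
      have := (Mod.βE E M q ⟨x, hx⟩).2
      rwa [coe_heckeBetaBar] at this)
    w hS.unif.ne_zero (dvd_of_mem_nonunits_RE A E w hS.dvr hS.unif) ((hVM a).mp ha)
  have hcoe : (((Mod.βE E M q (actE E M (Mod.resE E s hs) a) - (Mod.αE E M q a) ^ q) *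
      (Mod.cE A E (M * q) w)⁻¹ : Mod.FE E (M * q)) : LaurentSeries E) =
      (qExpand E q (coeffMap ((Mod.resE E s hs : E ≃ₐ[ℚ] E) : E →+* E) (a : LaurentSeries E)) -
        (a : LaurentSeries E) ^ q) * (H708.cst ((w : E)))⁻¹ := by
    rw [IntermediateField.coe_mul, IntermediateField.coe_inv, AddSubgroupClass.coe_sub,
      IntermediateField.coe_pow, coe_heckeBetaBar, coe_heckeAlphaBar,
      coe_arithmeticRingAut_apply]
    rfl
  rw [Mod.InW, hV, hcoe]
  exact key

end Fermat.Agent.S35.G.H516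

end
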